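import Mathlib

/-!
# Row S26, block AMPLE, leaf A4 / AM-PROJECT (helper144) — algebra (Mathlib only)

* `isIntegral_of_finite_ringHom` : transfer of integrality along a finite ring homomorphism;
* `finite_adjoin_of_finite_ringHom` : if a domain `B` with fraction field `L` is finite over
  `K[X_i]` (`X_i ↦ r_i`), then `L` is finite over the field `K(r_i)`;
* `trdeg_eq_of_algebraicIndependent_of_isAlgebraic` : `g` algebraically independent elements
  over which `F` is algebraic compute the transcendence degree.
-/

set_option autoImplicit false
set_option linter.style.haveILetI false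

namespace Fermat.Agent.S26.Ample.H144

/-- Transfer of integrality along a finite ring homomorphism `φ : P → B`: if the composite
`P → B → L` factors through a subfield `F ⊆ L`, the image of every `b : B` is integral
over `F`. -/
theorem isIntegral_of_finite_ringHom {P B F L : Type*} [CommRing P] [CommRing B] [Field F]
    [Field L] [Algebra F L] (φ : P →+* B) (hφ : φ.Finite) (ι : B →+* L) (ψ' : P →+* F)
    (hψ : (algebraMap F L).comp ψ' = ι.comp φ) (b : B) : IsIntegral F (ι b) := by
  obtain ⟨p, hp, hpb⟩ := hφ.to_isIntegral b
  refine ⟨p.map ψ', hp.map ψ', ?_⟩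
  rw [Polynomial.eval₂_map, hψ, ← Polynomial.hom_eval₂, hpb, map_zero]

/-- If the domain `B` with fraction field `L` is finite over the polynomial ring `K[X_i]`
through `X_i ↦ r_i`, then `L` is finite over `K(r_i)`. -/
theorem finite_adjoin_of_finite_ringHom {K : Type*} [Field K] {L : Type*} [Field L]
    [Algebra K L] {B : Type*} [CommRing B] [Algebra B L] [IsFractionRing B L]
    {σ : Type*} [Finite σ] (φ : MvPolynomial σ K →+* B) (hφ : φ.Finite) (r : σ → L)
    (hC : ∀ a, algebraMap B L (φ (MvPolynomial.C a)) = algebraMap K L a)
    (hX : ∀ i, algebraMap B L (φ (MvPolynomial.X i)) = r i) :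
    Module.Finite (IntermediateField.adjoin K (Set.range r)) L := by
  classical
  set F := IntermediateField.adjoin K (Set.range r) with hF
  let r' : σ → F := fun i => ⟨r i, IntermediateField.subset_adjoin K _ ⟨i, rfl⟩⟩
  let ψ' : MvPolynomial σ K →+* F := (MvPolynomial.aeval r' : MvPolynomial σ K →ₐ[K] F)
  have hcomp : (algebraMap F L).comp ψ' = (algebraMap B L).comp φ := by
    apply MvPolynomial.ringHom_ext
    · intro a
      simp only [RingHom.comp_apply, hC]
      simp [ψ', ← IsScalarTower.algebraMap_apply]
    · intro i
      simp only [RingHom.comp_apply, hX]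
      simp [ψ', r']
  -- integrality of the image of `B`
  have hint : ∀ b : B, IsIntegral F (algebraMap B L b) := fun b =>
    isIntegral_of_finite_ringHom φ hφ (algebraMap B L) ψ' hcomp b
  -- `L` is algebraic over `F`
  haveI halg : Algebra.IsIntegral F L := by
    refine ⟨fun y => ?_⟩
    obtain ⟨b, s, -, rfl⟩ := IsFractionRing.div_surjective (A := B) y
    rw [div_eq_mul_inv]
    exact (hint b).mul (hint s).inv
  -- `L` is essentially of finite type over `K`, hence over `F`
  letI algKB : Algebra K B := (φ.comp (MvPolynomial.C : K →+* MvPolynomial σ K)).toAlgebra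
  haveI : Algebra.FiniteType K B := by
    have h1 : (MvPolynomial.C : K →+* MvPolynomial σ K).FiniteType := by
      rw [← MvPolynomial.algebraMap_eq]
      exact RingHom.finiteType_algebraMap.mpr inferInstance
    exact hφ.finiteType.comp h1
  haveI : IsScalarTower K B L := IsScalarTower.of_algebraMap_eq fun a => (hC a).symm
  haveI : Algebra.EssFiniteType B L := Algebra.EssFiniteType.of_isLocalization L (nonZeroDivisors B)
  haveI : Algebra.EssFiniteType K L := Algebra.EssFiniteType.comp K B L
  haveI : Algebra.EssFiniteType F L := Algebra.EssFiniteType.of_comp K F L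
  obtain ⟨s, hs⟩ := IntermediateField.fg_top F L
  haveI hfd : FiniteDimensional F (IntermediateField.adjoin F (s : Set L)) :=
    IntermediateField.finiteDimensional_adjoin fun x _ => Algebra.IsIntegral.isIntegral x
  rw [hs] at hfd
  exact Module.Finite.equiv (IntermediateField.topEquiv (F := F) (E := L)).toLinearEquiv

open scoped IntermediateField.algebraAdjoinAdjoin in
/-- `g` algebraically independent elements over which `F` is algebraic compute the transcendence
degree of `F`. -/
theorem trdeg_eq_of_algebraicIndependent_of_isAlgebraic {K : Type*} {F : Type*} [Field K]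
    [Field F] [Algebra K F] {g : ℕ} (x : Fin g → F) (hx : AlgebraicIndependent K x)
    [Algebra.IsAlgebraic (IntermediateField.adjoin K (Set.range x)) F] :
    Algebra.trdeg K F = g := by
  haveI : Algebra.IsAlgebraic (Algebra.adjoin K (Set.range x))
      (IntermediateField.adjoin K (Set.range x)) :=
    IsLocalization.isAlgebraic _ (nonZeroDivisors (Algebra.adjoin K (Set.range x)))
  haveI : Algebra.IsAlgebraic (Algebra.adjoin K (Set.range x)) F :=
    Algebra.IsAlgebraic.trans _ (IntermediateField.adjoin K (Set.range x)) _
  have hb : IsTranscendenceBasis K x := hx.isTranscendenceBasis_iff_isAlgebraic.mpr inferInstance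
  have h := hb.lift_cardinalMk_eq_trdeg
  simpa using h.symm

end Fermat.Agent.S26.Ample.H144
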