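import Fermat.Agent.S26.SpecDeg
import Fermat.Agent.S26.H277.A4
import Fermat.Agent.S26.H566.LS2
import Fermat.Agent.S26.H86.Trdeg
import Fermat.Agent.S26.H87.BetaB2
import Fermat.Agent.S26.Ample.H144.ProjectAlg

/-!
# Row S26, block AMPLE, leaf A4 / AM-PROJECT (helper144) — core

`X` integral, proper and smooth of relative dimension `g` over a perfect infinite field `K`,
`w : Fin (N + 1) → K(X)` a GOOD system.  Then there are `g + 1` `K`-linear combinations
`u_0, …, u_g` of the `w_i` which form a GOOD system generating the same fractional ideal sheaf,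
with algebraically independent affine coordinates and finite degree (`exists_project`).

Inputs: graded Noether normalisation and the base point free criterion (helper277, `H277/A4`),
LS2 (helper566, `H566/LS2`), B2 finiteness of `D_0(u) ⟶ 𝔸^g` (helper87, `H87/BetaB2`),
`trdeg_K K(X) = g` (helper86, `H86/Trdeg`).
-/

set_option autoImplicit false
set_option linter.style.haveILetI false
universe u

open CategoryTheory AlgebraicGeometry TopologicalSpace

namespace Fermat.Agent.S26.Ample.H144

open Fermat.Agent.S26

noncomputable section

variable {K : Type u} [Field K] {X : Scheme.{u}} [IsIntegral X]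
  (str : X ⟶ Spec (CommRingCat.of K))

/-- The structure map `K → O_{X,x}`. -/
def stalkStr (x : X) : K →+* X.presheaf.stalk x :=
  ((Scheme.ΓSpecIso (CommRingCat.of K)).inv ≫ str.appTop ≫
    X.presheaf.germ ⊤ x (Opens.mem_top _)).hom

theorem algebraMap_stalkStr (x : X) (a : K) :
    algebraMap (X.presheaf.stalk x) X.functionField (stalkStr str x a) = ffStr str a :=
  H566.algebraMap_germ _ x (Opens.mem_top _)

/-- **Base point freeness of the projected system.**  If every `w i` is homogeneously integral
over `K[u]` and the `u j` are sections of the sheaf generated by `w`, then at every point where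
some `w c` generates, some `u j` generates. -/
theorem exists_genBy_of_homIntegral {n k : ℕ} (w : Fin n → X.functionField)
    (u : Fin k → X.functionField) (hu : ∀ x j, u j ∈ LS.span w x)
    (hint : ∀ i, @H277.HomIntegral K _ X.functionField _ (H86.ffAlgebra str) k u (w i))
    (x : X) (c : Fin n) (hc : LS.GenAt w x c) : ∃ j, H566.GenBy w x (u j) := by
  letI := H86.ffAlgebra str
  letI : Algebra K (X.presheaf.stalk x) := (stalkStr str x).toAlgebra
  haveI : IsScalarTower K (X.presheaf.stalk x) X.functionField :=
    IsScalarTower.of_algebraMap_eq fun a => (algebraMap_stalkStr str x a).symm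
  have hmem : ∀ j, ∃ r : X.presheaf.stalk x, r • w c = u j := fun j => by
    have := hu x j
    rw [hc.2] at this
    exact Submodule.mem_span_singleton.mp this
  choose r hr using hmem
  have hr' : ∀ j, algebraMap (X.presheaf.stalk x) X.functionField (r j) = u j / w c :=
    fun j => by
      rw [← hr j, Algebra.smul_def, mul_div_assoc, div_self hc.1, mul_one]
  obtain ⟨j, hj⟩ := H277.exists_isUnit_of_homIntegral (K := K)
    (H566.algebraMap_stalk_injective x) u (w c) hc.1 (hint c) r hr'
  refine ⟨j, ?_⟩
  rw [← hr j]
  exact (H566.genBy_smul_iff (w := w) (x := x) (a := w c) hc (r j)).2 hj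

/-- At a point whose local ring is a field every nonzero member generates. -/
theorem genAt_of_forall_isUnit {ι : Type} (u : ι → X.functionField) (x : X)
    (hx : ∀ r : X.presheaf.stalk x, r ≠ 0 → IsUnit r) (b j : ι) (hb : LS.GenAt u x b)
    (hj : u j ≠ 0) : LS.GenAt u x j := by
  have hmem : u j ∈ LS.span u x := H566.mem_span_self u _ j
  rw [hb.2] at hmem
  obtain ⟨r, hr⟩ := Submodule.mem_span_singleton.mp hmem
  have hr0 : r ≠ 0 := by
    rintro rfl
    rw [zero_smul] at hr
    exact hj hr.symm
  have := (H566.genBy_smul_iff (w := u) (x := x) (a := u b) hb r).2 (hx r hr0)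
  rw [hr] at this
  exact this

/-- At the generic point every nonzero member generates. -/
theorem genAt_genericPoint {ι : Type} (u : ι → X.functionField) (hbpf : LS.BPF u) (j : ι)
    (hj : u j ≠ 0) : LS.GenAt u (genericPoint X) j := by
  obtain ⟨b, hb⟩ := hbpf (genericPoint X)
  refine genAt_of_forall_isUnit u (genericPoint X) (fun r hr => ?_) b j hb hj
  exact IsUnit.mk0 (G₀ := X.functionField) r hr

/-- **Finiteness.**  For a GOOD system `u` of `g + 1` functions with `u 0 ≠ 0` on an integral
scheme proper over `K`, the function field is finite over `K(u_1/u_0, …, u_g/u_0)`. -/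
theorem finite_adjoin_of_good [IsProper str] {g : ℕ} (u : Fin (g + 1) → X.functionField)
    (hu : LS.Good u) (hu0 : u 0 ≠ 0) :
    letI := H86.ffAlgebra str
    Module.Finite (IntermediateField.adjoin K (Set.range (LS.ratios u))) X.functionField := by
  letI := H86.ffAlgebra str
  obtain ⟨hbpf, haff⟩ := hu
  obtain ⟨U, hU, hUx⟩ := haff 0
  have hη : genericPoint X ∈ U := (hUx _).2 (genAt_genericPoint u hbpf 0 hu0)
  haveI : Nonempty U := ⟨⟨genericPoint X, hη⟩⟩
  obtain ⟨t, ht, hfin, -⟩ := H87.exists_finite_of_bpf u str hbpf U hU hUx
  haveI := functionField_isFractionRing_of_isAffineOpen X U hU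
  refine finite_adjoin_of_finite_ringHom (H87.tRingHom str U t) hfin (LS.ratios u) ?_ ?_
  · intro a
    rw [H87.tRingHom_C]
    show X.presheaf.germ U (genericPoint X) hη (H87.strHom str U a) = ffStr str a
    rw [H87.strHom]
    simp only [RingHom.comp_apply]
    erw [TopCat.Presheaf.germ_res_apply]
    rfl
  · intro i
    rw [H87.tRingHom_X]
    exact ht i hη

/-- **AM-PROJECT, general form.** -/
theorem exists_project [Infinite K] [PerfectField K] [IsProper str] (g : ℕ)
    [SmoothOfRelativeDimension g str] {N : ℕ} (w : Fin (N + 1) → X.functionField)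
    (hw : LS.Good w) :
    ∃ u : Fin (g + 1) → X.functionField,
      LS.Good u ∧ LS.Same u w ∧ LS.Indep str u ∧ 0 < LS.deg str u := by
  letI := H86.ffAlgebra str
  obtain ⟨b, hb⟩ := hw.1 (genericPoint X)
  obtain ⟨g', a, hu0, hind, -, hint, -⟩ := H277.graded_noether_ratios (K := K) w ⟨b, hb.1⟩
  have hlin : ∀ j, H277.lin a w j = ∑ i, ffStr str (a j i) * w i := fun j => by
    simp only [H277.lin, Algebra.smul_def]
    rfl
  have hmem : ∀ x j, H277.lin a w j ∈ LS.span w x := fun x j => by
    rw [hlin j]
    exact H566.sum_gcoef_mul_mem_span w x (fun b => H566.constSection str (a j b))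
  have hbpf : ∀ x, ∃ j, H566.GenBy w x (H277.lin a w j) := fun x => by
    obtain ⟨c, hc⟩ := hw.1 x
    exact exists_genBy_of_homIntegral str w (H277.lin a w) hmem hint x c hc
  obtain ⟨hgood, hsame⟩ :=
    H566.good_of_linearCombination_ffStr str w hw a (H277.lin a w) hlin hbpf
  have hfin := finite_adjoin_of_good str (H277.lin a w) hgood hu0
  have hind' : AlgebraicIndependent K (LS.ratios (H277.lin a w)) := hind
  haveI : Algebra.IsAlgebraic
      (IntermediateField.adjoin K (Set.range (LS.ratios (H277.lin a w)))) X.functionField :=
    Algebra.IsAlgebraic.of_finite _ _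
  have htr' := trdeg_eq_of_algebraicIndependent_of_isAlgebraic _ hind'
  have htr := H86.trdeg_functionField str g
  have hg : g' = g := by
    have h : (g' : Cardinal) = (g : Cardinal) := htr'.symm.trans htr
    exact_mod_cast h
  subst hg
  refine ⟨H277.lin a w, hgood, hsame, ?_, ?_⟩
  · intro p hp
    rw [algebraicIndependent_iff] at hind'
    exact hind' p (by rw [MvPolynomial.aeval_def]; exact hp)
  · haveI : Module.Finite (LS.coordField str (H277.lin a w)) X.functionField := hfin
    exact Module.finrank_pos

end

end Fermat.Agent.S26.Ample.H144
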