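import Fermat.Agent.S26.Ample.Spec
import Fermat.Agent.S26.Ample.H144.ProjectCore

/-!
# Row S26, block AMPLE, leaf A4 (helper144): `Ample.Stmt.Project K`

The frozen leaf `Fermat.Agent.S26.Ample.Stmt.Project K` of `Ample/Spec.lean`, from the general
form `exists_project` of `ProjectCore.lean`.
-/

set_option autoImplicit false
set_option linter.style.haveILetI false
universe u

open CategoryTheory AlgebraicGeometry

namespace Fermat.Agent.S26.Ample.H144

open Fermat.Agent.S26

/-- **A4 / AM-PROJECT** in the form of `Ample/Spec.lean`. -/
theorem project (K : Type u) [Field K] [IsAlgClosed K] : Ample.Stmt.Project K := by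
  intro X _ N w hw
  haveI := X.bundle.proper
  haveI := X.smoothDim
  exact exists_project X.str X.dim w hw

end Fermat.Agent.S26.Ample.H144
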